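/-
Shared infrastructure: places of `AlgebraicClosure ℚ` above a rational prime, the decomposition
group, Frobenius elements, transitivity.
-/
import Mathlib
import Fermat.Prelude.Def_EllipticCurve_FrobeniusTrace

set_option autoImplicit false

noncomputable section

namespace Fermat.Agent.Galois

open scoped Pointwise
open IsLocalRing

/-- The absolute Galois group of ℚ. -/
abbrev GQ : Type := AlgebraicClosure ℚ ≃ₐ[ℚ] AlgebraicClosure ℚ

/-- The ring of all algebraic integers. -/
abbrev ZBar : Type := ↥(integralClosure ℤ (AlgebraicClosure ℚ))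

instance isAlgebraic_qbar : Algebra.IsAlgebraic ℚ (AlgebraicClosure ℚ) := by
  have h := AlgebraicClosure.isAlgebraic ℚ
  exact ⟨fun x => by
    obtain ⟨q, hq0, hq⟩ := h.isAlgebraic x
    refine ⟨q, hq0, ?_⟩
    convert hq using 1
    congr 1⟩

instance isGalois_qbar : IsGalois ℚ (AlgebraicClosure ℚ) := by
  haveI : IsAlgClosure ℚ (AlgebraicClosure ℚ) := ⟨inferInstance, isAlgebraic_qbar⟩
  exact IsAlgClosure.isGalois ℚ (AlgebraicClosure ℚ)

theorem integralClosure_le (A : ValuationSubring (AlgebraicClosure ℚ)) (b : ZBar) :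
    (b : AlgebraicClosure ℚ) ∈ A := by
  have h : _root_.IsIntegral A (b : AlgebraicClosure ℚ) := b.2.tower_top
  obtain ⟨y, hy⟩ := IsIntegrallyClosed.isIntegral_iff.mp h
  rw [← hy]
  exact y.2

/-- The inclusion of the algebraic integers into a valuation subring. -/
def zbarToPlace (A : ValuationSubring (AlgebraicClosure ℚ)) : ZBar →+* A where
  toFun b := ⟨b, integralClosure_le A b⟩
  map_one' := rfl
  map_mul' _ _ := rfl
  map_zero' := rfl
  map_add' _ _ := rfl

@[simp] theorem coe_zbarToPlace (A : ValuationSubring (AlgebraicClosure ℚ)) (b : ZBar) :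
    ((zbarToPlace A b : A) : AlgebraicClosure ℚ) = b := rfl

/-- The centre of a valuation subring on the algebraic integers. -/
def placeCenter (A : ValuationSubring (AlgebraicClosure ℚ)) : Ideal ZBar :=
  (maximalIdeal A).comap (zbarToPlace A)

instance placeCenter_isPrime (A : ValuationSubring (AlgebraicClosure ℚ)) :
    (placeCenter A).IsPrime :=
  Ideal.IsPrime.comap _

theorem mem_placeCenter_iff (A : ValuationSubring (AlgebraicClosure ℚ)) (b : ZBar) :
    b ∈ placeCenter A ↔ (b : AlgebraicClosure ℚ) ∈ A.nonunits := by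
  rw [placeCenter, Ideal.mem_comap, ← A.coe_mem_nonunits_iff, coe_zbarToPlace]

theorem intCast_mem_placeCenter {A : ValuationSubring (AlgebraicClosure ℚ)} {ℓ : ℕ}
    (hℓ : ℓ.Prime) (hA : A.LiesOverPrime ℓ) (n : ℤ) :
    (n : ZBar) ∈ placeCenter A ↔ (ℓ : ℤ) ∣ n := by
  have hmem : ((ℓ : ℤ) : ZBar) ∈ placeCenter A := by
    rw [mem_placeCenter_iff]
    simpa [ValuationSubring.LiesOverPrime] using hA
  constructor
  · intro hn
    by_contra hndvd
    obtain ⟨u, v, huv⟩ :=
      ((Nat.prime_iff_prime_int.mp hℓ).irreducible.coprime_iff_not_dvd).mpr hndvd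
    have h1 : ((u * (ℓ : ℤ) + v * n : ℤ) : ZBar) ∈ placeCenter A := by
      push_cast
      exact add_mem (Ideal.mul_mem_left _ _ (by simpa using hmem)) (Ideal.mul_mem_left _ _ hn)
    rw [huv, Int.cast_one] at h1
    exact (placeCenter_isPrime A).ne_top (Ideal.eq_top_iff_one _ |>.mpr h1)
  · rintro ⟨m, rfl⟩
    push_cast
    exact Ideal.mul_mem_right _ _ (by simpa using hmem)

/-- An element lying in every valuation subring is an algebraic integer. -/
theorem isIntegral_of_forall_valuationSubring {y : AlgebraicClosure ℚ}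
    (h : ∀ V : ValuationSubring (AlgebraicClosure ℚ), y ∈ V) : _root_.IsIntegral ℤ y := by
  have h1 : y ∈ ⨅ V : {V : ValuationSubring (AlgebraicClosure ℚ) //
      (∅ : Set (AlgebraicClosure ℚ)) ⊆ V.toSubring}, V.1.toSubring :=
    Subring.mem_iInf.mpr fun V => h V.1
  rw [iInf_valuationSubring_superset, Subring.closure_empty] at h1
  have h2 : _root_.IsIntegral (⊥ : Subring (AlgebraicClosure ℚ)) y := h1
  obtain ⟨p, hp, hpy⟩ := h2
  have hsurj : Function.Surjective (Int.castRingHom (⊥ : Subring (AlgebraicClosure ℚ))) := by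
    rintro ⟨z, hz⟩
    obtain ⟨m, rfl⟩ := Subring.mem_bot.mp hz
    exact ⟨m, by ext; simp⟩
  obtain ⟨q, hq, -, hqm⟩ := Polynomial.lifts_and_natDegree_eq_and_monic
    ((Polynomial.mem_lifts p).mpr (Polynomial.map_surjective _ hsurj p)) hp
  refine ⟨q, hqm, ?_⟩
  rw [← hq, Polynomial.eval₂_map] at hpy
  rw [← hpy]
  exact Polynomial.eval₂_congr (Subsingleton.elim _ _) rfl rfl

/-- There is a place above every prime. -/
theorem exists_liesOverPrime {ℓ : ℕ} (hℓ : ℓ.Prime) :
    ∃ A : ValuationSubring (AlgebraicClosure ℚ), A.LiesOverPrime ℓ := by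
  let R : Subring (AlgebraicClosure ℚ) := (Int.castRingHom (AlgebraicClosure ℚ)).range
  let I : Ideal R := Ideal.span {⟨(ℓ : AlgebraicClosure ℚ), ⟨ℓ, by simp⟩⟩}
  have hI : I ≠ ⊤ := by
    intro htop
    rw [Ideal.span_singleton_eq_top, isUnit_iff_exists_inv] at htop
    obtain ⟨⟨_, m, rfl⟩, hm⟩ := htop
    have h : ((ℓ * m : ℤ) : AlgebraicClosure ℚ) = ((1 : ℤ) : AlgebraicClosure ℚ) := by
      push_cast
      exact congrArg Subtype.val hm
    have h1 : (ℓ : ℤ) ∣ 1 := ⟨m, (Int.cast_injective h).symm⟩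
    have := Int.le_of_dvd one_pos h1
    have := hℓ.two_le
    omega
  obtain ⟨A, -, hA⟩ := Ideal.image_subset_nonunits_valuationSubring I hI
  exact ⟨A, hA ⟨_, Ideal.subset_span rfl, rfl⟩⟩

/-- `A` is the localization of the algebraic integers at its centre. -/
theorem exists_mul_eq_of_mem {A : ValuationSubring (AlgebraicClosure ℚ)} {ℓ : ℕ}
    (hℓ : ℓ.Prime) (hA : A.LiesOverPrime ℓ) {x : AlgebraicClosure ℚ} (hx : x ∈ A) :
    ∃ b c : ZBar, c ∉ placeCenter A ∧ x * c = b := by
  classical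
  obtain ⟨f, hf0, hfx⟩ :=
    (IsFractionRing.isAlgebraic_iff ℤ ℚ (AlgebraicClosure ℚ)).mpr
      (Algebra.IsAlgebraic.isAlgebraic (R := ℚ) x)
  set g := f.primPart with hg
  have hgprim : g.IsPrimitive := f.isPrimitive_primPart
  have hgx : Polynomial.aeval x g = 0 := by
    have h := congrArg (Polynomial.aeval x) f.eq_C_content_mul_primPart
    rw [hfx, map_mul, Polynomial.aeval_C] at h
    rcases mul_eq_zero.mp h.symm with h1 | h1
    · exact absurd h1 (by simpa [Polynomial.content_eq_zero_iff] using hf0)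
    · exact h1
  obtain ⟨i₀, hi₀n, hi₀⟩ : ∃ i, i ≤ g.natDegree ∧ ¬ (ℓ : ℤ) ∣ g.coeff i := by
    by_contra hall
    push Not at hall
    have hC : Polynomial.C (ℓ : ℤ) ∣ g := Polynomial.C_dvd_iff_dvd_coeff _ _ |>.mpr fun i => by
      by_cases hi : i ≤ g.natDegree
      · exact hall i hi
      · simp [Polynomial.coeff_eq_zero_of_natDegree_lt (not_le.mp hi)]
    exact (Nat.prime_iff_prime_int.mp hℓ).not_unit (hgprim _ hC)
  set n := g.natDegree with hn
  let b : ℕ → AlgebraicClosure ℚ := fun k =>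
    ∑ i ∈ Finset.range (k + 1), (g.coeff (n - i) : AlgebraicClosure ℚ) * x ^ (k - i)
  have hbsucc : ∀ k, b (k + 1) = b k * x + g.coeff (n - (k + 1)) := by
    intro k
    simp only [b]
    rw [Finset.sum_range_succ, Nat.sub_self, pow_zero, mul_one, Finset.sum_mul]
    congr 1
    refine Finset.sum_congr rfl fun i hi => ?_
    rw [Finset.mem_range] at hi
    rw [show k + 1 - i = (k - i) + 1 by omega, pow_succ]
    ring
  have hb0 : b 0 = g.coeff n := by simp [b]
  have hbn : b n = 0 := by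
    rw [← hgx, Polynomial.aeval_eq_sum_range]
    simp only [b]
    rw [← Finset.sum_range_reflect]
    refine Finset.sum_congr rfl fun i hi => ?_
    rw [Finset.mem_range] at hi
    rw [zsmul_eq_mul, show n + 1 - 1 - i = n - i by omega,
      show n - (n - i) = i by omega]
  have hrec : ∀ k, k < n → b k * x = b (k + 1) - g.coeff (n - (k + 1)) := fun k _ => by
    rw [hbsucc]; ring
  have hbV : ∀ (V : ValuationSubring (AlgebraicClosure ℚ)), ∀ j, j ≤ n → b (n - j) ∈ V := by
    intro V j hj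
    rcases V.mem_or_inv_mem x with hV | hV
    · exact sum_mem fun i _ => mul_mem (intCast_mem V _) (pow_mem hV _)
    · induction j with
      | zero => simp [hbn]
      | succ j ih =>
        rcases eq_or_ne x 0 with rfl | hx0
        · exact sum_mem fun i _ => mul_mem (intCast_mem V _) (pow_mem (zero_mem V) _)
        have h1 := hrec (n - (j + 1)) (by omega)
        rw [show n - (j + 1) + 1 = n - j by omega] at h1
        have h2 : b (n - (j + 1)) = (b (n - j) - g.coeff (n - (n - j))) * x⁻¹ := by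
          rw [← h1, mul_assoc, mul_inv_cancel₀ hx0, mul_one]
        rw [h2]
        exact mul_mem (sub_mem (ih (by omega)) (intCast_mem V _)) hV
  have hint : ∀ k, k ≤ n → _root_.IsIntegral ℤ (b k) := fun k hk =>
    isIntegral_of_forall_valuationSubring fun V => by
      have := hbV V (n - k) (by omega)
      rwa [show n - (n - k) = k by omega] at this
  have hintx : ∀ k, k ≤ n → _root_.IsIntegral ℤ (b k * x) := by
    intro k hk
    rcases hk.lt_or_eq with hlt | rfl
    · rw [hrec k hlt]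
      exact (hint (k + 1) hlt).sub isIntegral_algebraMap
    · rw [hbn, zero_mul]; exact isIntegral_zero
  by_contra hcon
  push Not at hcon
  have hall : ∀ k, k ≤ n →
      ∀ (h1 : _root_.IsIntegral ℤ (b k)) (h2 : _root_.IsIntegral ℤ (b k * x)),
      (⟨b k, h1⟩ : ZBar) ∈ placeCenter A ∧ (⟨b k * x, h2⟩ : ZBar) ∈ placeCenter A := by
    intro k _ h1 h2
    have hmem : (⟨b k, h1⟩ : ZBar) ∈ placeCenter A := by
      by_contra h
      exact hcon ⟨b k * x, h2⟩ ⟨b k, h1⟩ h (by simp [mul_comm])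
    refine ⟨hmem, ?_⟩
    rw [mem_placeCenter_iff] at hmem ⊢
    rw [ValuationSubring.mem_nonunits_iff] at hmem ⊢
    rw [map_mul]
    exact mul_lt_one_of_lt_of_le hmem ((A.valuation_le_one_iff x).mpr hx)
  apply hi₀
  rw [← intCast_mem_placeCenter hℓ hA]
  obtain ⟨k, hk, hki⟩ : ∃ k, k ≤ n ∧ i₀ = n - k := ⟨n - i₀, by omega, by omega⟩
  rw [hki]
  have hi' : ∀ k, k ≤ n → _root_.IsIntegral ℤ (b k) ∧ _root_.IsIntegral ℤ (b k * x) :=
    fun k hk => ⟨hint k hk, hintx k hk⟩
  rcases k with _ | k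
  · have h := (hall 0 hk (hi' 0 hk).1 (hi' 0 hk).2).1
    convert h using 1
    apply Subtype.ext
    simp [hb0]
  · have h1 := (hall (k + 1) hk (hi' (k + 1) hk).1 (hi' (k + 1) hk).2).1
    have h2 := (hall k (by omega) (hi' k (by omega)).1 (hi' k (by omega)).2).2
    convert sub_mem h1 h2 using 1
    apply Subtype.ext
    push_cast
    rw [hbsucc k]
    ring

theorem mem_nonunits_smul_iff (σ : GQ) (A : ValuationSubring (AlgebraicClosure ℚ))
    (x : AlgebraicClosure ℚ) : σ x ∈ (σ • A).nonunits ↔ x ∈ A.nonunits := by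
  rw [ValuationSubring.mem_nonunits_iff_or, ValuationSubring.mem_nonunits_iff_or]
  simp only [ValuationSubring.mem_pointwise_smul_iff_inv_smul_mem, map_inv₀, map_eq_zero]
  simp

theorem le_of_center_eq {A A' : ValuationSubring (AlgebraicClosure ℚ)} {ℓ : ℕ}
    (hℓ : ℓ.Prime) (hA : A.LiesOverPrime ℓ) (h : placeCenter A' = placeCenter A)
    (x : AlgebraicClosure ℚ) (hx : x ∈ A) : x ∈ A' := by
  obtain ⟨b, c, hc, he⟩ := exists_mul_eq_of_mem hℓ hA hx
  rw [← h, mem_placeCenter_iff, ValuationSubring.mem_nonunits_iff, not_lt] at hc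
  rw [← A'.valuation_le_one_iff]
  have hv := congrArg A'.valuation he
  rw [map_mul, le_antisymm ((A'.valuation_le_one_iff _).mpr (integralClosure_le A' _)) hc,
    mul_one] at hv
  rw [hv]
  exact (A'.valuation_le_one_iff _).mpr (integralClosure_le A' _)

theorem smul_place_eq_of_center {A : ValuationSubring (AlgebraicClosure ℚ)} {ℓ : ℕ}
    (hℓ : ℓ.Prime) (hA : A.LiesOverPrime ℓ) (σ : GQ)
    (hσ : ∀ b : ZBar, σ • b ∈ placeCenter A ↔ b ∈ placeCenter A) : σ • A = A := by
  have key : ∀ (τ : GQ), (∀ b : ZBar, τ • b ∈ placeCenter A ↔ b ∈ placeCenter A) →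
      ∀ x ∈ A, τ x ∈ A := by
    intro τ hτ x hx
    obtain ⟨b, c, hc, h⟩ := exists_mul_eq_of_mem hℓ hA hx
    have hτc : τ • c ∉ placeCenter A := fun h' => hc ((hτ c).mp h')
    have heq : τ x * ((τ • c : ZBar) : AlgebraicClosure ℚ) = ((τ • b : ZBar) : AlgebraicClosure ℚ) := by
      simp [← map_mul, h]
    have hu : A.valuation ((τ • c : ZBar) : AlgebraicClosure ℚ) = 1 := by
      refine le_antisymm ((A.valuation_le_one_iff _).mpr (integralClosure_le A _)) ?_
      rw [mem_placeCenter_iff, ValuationSubring.mem_nonunits_iff, not_lt] at hτc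
      exact hτc
    rw [← A.valuation_le_one_iff]
    have := congrArg A.valuation heq
    rw [map_mul, hu, mul_one] at this
    rw [this]
    exact (A.valuation_le_one_iff _).mpr (integralClosure_le A _)
  apply SetLike.ext
  intro x
  rw [ValuationSubring.mem_pointwise_smul_iff_inv_smul_mem]
  constructor
  · intro hx
    have := key σ hσ _ hx
    simpa using this
  · intro hx
    have hσ' : ∀ b : ZBar, σ⁻¹ • b ∈ placeCenter A ↔ b ∈ placeCenter A := fun b => by
      simpa using (hσ (σ⁻¹ • b)).symm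
    exact key σ⁻¹ hσ' x hx

/-- The residue map, restricted to algebraic integers, is onto. -/
theorem exists_residue_eq {A : ValuationSubring (AlgebraicClosure ℚ)} {ℓ : ℕ}
    (hℓ : ℓ.Prime) (hA : A.LiesOverPrime ℓ) (r : ResidueField A) :
    ∃ b c : ZBar, c ∉ placeCenter A ∧
      r * residue A (zbarToPlace A c) = residue A (zbarToPlace A b) := by
  obtain ⟨x, rfl⟩ := residue_surjective r
  obtain ⟨b, c, hc, h⟩ := exists_mul_eq_of_mem hℓ hA x.2
  exact ⟨b, c, hc, by rw [← map_mul]; exact congrArg _ (Subtype.ext h)⟩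

theorem residue_zbar_eq_zero_iff (A : ValuationSubring (AlgebraicClosure ℚ)) (b : ZBar) :
    residue A (zbarToPlace A b) = 0 ↔ b ∈ placeCenter A :=
  residue_eq_zero_iff _

instance isInvariant_zbar : Algebra.IsInvariant ℤ ZBar GQ := by
  constructor
  intro b hb
  have h1 : (b : AlgebraicClosure ℚ) ∈ Set.range (algebraMap ℚ (AlgebraicClosure ℚ)) :=
    InfiniteGalois.mem_range_algebraMap_iff_fixed _ |>.mpr fun σ => congrArg Subtype.val (hb σ)
  obtain ⟨r, hr⟩ := h1
  have hint : _root_.IsIntegral ℤ (algebraMap ℚ (AlgebraicClosure ℚ) r) := hr ▸ b.2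
  rw [isIntegral_algebraMap_iff (algebraMap ℚ (AlgebraicClosure ℚ)).injective] at hint
  obtain ⟨m, rfl⟩ := IsIntegrallyClosed.isIntegral_iff.mp hint
  exact ⟨m, Subtype.ext (by simpa using hr)⟩

/-- Frobenius elements exist at every place. -/
theorem exists_isFrobeniusAt {A : ValuationSubring (AlgebraicClosure ℚ)} {ℓ : ℕ}
    (hℓ : ℓ.Prime) (hA : A.LiesOverPrime ℓ) : ∃ σ : GQ, A.IsFrobeniusAt σ ℓ := by
  letI : TopologicalSpace ZBar := ⊥
  haveI : DiscreteTopology ZBar := ⟨rfl⟩
  haveI : ContinuousSMul GQ ZBar := by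
    refine ContinuousSMul.mk (continuous_prod_of_discrete_right.mpr fun b => ?_)
    refine (IsLocallyConstant.iff_exists_open _).mpr (fun σ => ?_) |>.continuous
    refine ⟨σ • (MulAction.stabilizer GQ (b : AlgebraicClosure ℚ) : Set GQ),
      (stabilizer_isOpen_of_isIntegral _).leftCoset σ, ⟨1, one_mem _, mul_one σ⟩, ?_⟩
    rintro _ ⟨τ, hτ, rfl⟩
    apply Subtype.ext
    simp only [SetLike.mem_coe, MulAction.mem_stabilizer_iff] at hτ
    simp [mul_smul, hτ]
  set Q : Ideal ZBar := placeCenter A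
  set P : Ideal ℤ := Ideal.span {(ℓ : ℤ)}
  haveI : Fact ℓ.Prime := ⟨hℓ⟩
  haveI hover : Q.LiesOver P := ⟨by
    ext n
    rw [Ideal.mem_span_singleton, Ideal.under, Ideal.mem_comap, eq_intCast,
      intCast_mem_placeCenter hℓ hA]⟩
  haveI : CharP (ZBar ⧸ Q) ℓ := by
    refine ⟨fun m => ?_⟩
    rw [← map_natCast (Ideal.Quotient.mk Q), Ideal.Quotient.eq_zero_iff_mem, ← Int.cast_natCast,
      intCast_mem_placeCenter hℓ hA, Int.natCast_dvd_natCast]
  have hPmax : P.IsMaximal :=
    PrincipalIdealRing.isMaximal_of_irreducible (Nat.prime_iff_prime_int.mp hℓ).irreducible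
  haveI : Algebra.IsIntegral ℤ ZBar := inferInstance
  haveI hQmax : Q.IsMaximal := Ideal.isMaximal_of_isIntegral_of_isMaximal_comap (R := ℤ) Q
    (by rw [show Ideal.comap (algebraMap ℤ ZBar) Q = P from hover.over.symm]; exact hPmax)
  haveI : PerfectRing (ZBar ⧸ Q) ℓ := by
    refine PerfectRing.ofSurjective _ _ fun r => ?_
    obtain ⟨b, rfl⟩ := Ideal.Quotient.mk_surjective r
    obtain ⟨y, hy⟩ := IsAlgClosed.exists_pow_nat_eq (b : AlgebraicClosure ℚ) hℓ.pos
    refine ⟨Ideal.Quotient.mk Q ⟨y, IsIntegral.of_pow hℓ.pos (hy ▸ b.2)⟩, ?_⟩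
    rw [frobenius_def, ← map_pow]
    exact congrArg _ (Subtype.ext (by simpa using hy))
  let fr : (ZBar ⧸ Q) ≃ₐ[ℤ ⧸ P] (ZBar ⧸ Q) :=
    AlgEquiv.ofRingEquiv (f := frobeniusEquiv (ZBar ⧸ Q) ℓ) (by
      intro r
      obtain ⟨m, rfl⟩ := Ideal.Quotient.mk_surjective r
      rw [eq_intCast, map_intCast, map_intCast])
  obtain ⟨⟨σ, hσQ⟩, hσ⟩ := Ideal.Quotient.stabilizerHom_surjective_of_profinite (G := GQ) P Q fr
  have hfix : ∀ b : ZBar, σ • b ∈ Q ↔ b ∈ Q := fun b => by
    conv_lhs => rw [← (show σ • Q = Q from hσQ)]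
    exact Ideal.smul_mem_pointwise_smul_iff
  have hdec : σ ∈ A.decompositionSubgroup ℚ := smul_place_eq_of_center hℓ hA σ hfix
  have key : ∀ b : ZBar, residue A (zbarToPlace A (σ • b)) = residue A (zbarToPlace A b) ^ ℓ := by
    intro b
    have h := AlgEquiv.congr_fun hσ (Ideal.Quotient.mk Q b)
    have h' : Ideal.Quotient.mk Q (σ • b) = Ideal.Quotient.mk Q (b ^ ℓ) := by
      rw [map_pow]
      exact h
    rw [Ideal.Quotient.eq] at h'
    rw [← map_pow, ← map_pow, ← sub_eq_zero, ← map_sub, ← map_sub]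
    exact (residue_zbar_eq_zero_iff A _).mpr h'
  refine ⟨σ, hdec, fun r => ?_⟩
  obtain ⟨b, c, hc, h⟩ := exists_residue_eq hℓ hA r
  have hc' : residue A (zbarToPlace A (σ • c)) ≠ 0 := by
    rw [Ne, residue_zbar_eq_zero_iff]
    exact fun h' => hc ((hfix c).mp h')
  refine mul_right_cancel₀ hc' ?_
  have h1 := congrArg (fun z => (⟨σ, hdec⟩ : A.decompositionSubgroup ℚ) • z) h
  simp only [smul_mul', ← ResidueField.residue_smul] at h1
  rw [show (⟨σ, hdec⟩ : A.decompositionSubgroup ℚ) • zbarToPlace A c = zbarToPlace A (σ • c) from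
    Subtype.ext rfl, show (⟨σ, hdec⟩ : A.decompositionSubgroup ℚ) • zbarToPlace A b =
      zbarToPlace A (σ • b) from Subtype.ext rfl] at h1
  rw [h1, key c, key b, ← mul_pow, h]

/-- Two places above the same prime are conjugate. -/
theorem exists_smul_eq_of_liesOverPrime {A A' : ValuationSubring (AlgebraicClosure ℚ)} {ℓ : ℕ}
    (hℓ : ℓ.Prime) (hA : A.LiesOverPrime ℓ) (hA' : A'.LiesOverPrime ℓ) :
    ∃ σ : GQ, A' = σ • A := by
  letI : TopologicalSpace ZBar := ⊥
  haveI : DiscreteTopology ZBar := ⟨rfl⟩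
  haveI : ContinuousSMul GQ ZBar := by
    refine ContinuousSMul.mk (continuous_prod_of_discrete_right.mpr fun b => ?_)
    refine (IsLocallyConstant.iff_exists_open _).mpr (fun σ => ?_) |>.continuous
    refine ⟨σ • (MulAction.stabilizer GQ (b : AlgebraicClosure ℚ) : Set GQ),
      (stabilizer_isOpen_of_isIntegral _).leftCoset σ, ⟨1, one_mem _, mul_one σ⟩, ?_⟩
    rintro _ ⟨τ, hτ, rfl⟩
    apply Subtype.ext
    simp only [SetLike.mem_coe, MulAction.mem_stabilizer_iff] at hτ
    simp [mul_smul, hτ]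
  obtain ⟨σ, hσ⟩ := Algebra.IsInvariant.exists_smul_of_under_eq_of_profinite (A := ℤ) (G := GQ)
    (placeCenter A) (placeCenter A') (by
      ext n
      rw [Ideal.under, Ideal.mem_comap, eq_intCast, intCast_mem_placeCenter hℓ hA, Ideal.mem_comap,
        eq_intCast, intCast_mem_placeCenter hℓ hA'])
  refine ⟨σ, ?_⟩
  -- `A'` and `σ • A` have the same centre, and both are the localization there
  apply SetLike.ext
  intro x
  have hσA : (σ • A).LiesOverPrime ℓ := by
    have : (ℓ : AlgebraicClosure ℚ) = σ (ℓ : AlgebraicClosure ℚ) := (map_natCast σ ℓ).symm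
    show (ℓ : AlgebraicClosure ℚ) ∈ (σ • A).nonunits
    rw [this]
    exact (mem_nonunits_smul_iff σ A _).mpr hA
  have hcen : placeCenter (σ • A) = placeCenter A' := by
    rw [hσ]
    ext b
    rw [Ideal.mem_pointwise_smul_iff_inv_smul_mem, mem_placeCenter_iff, mem_placeCenter_iff,
      ← mem_nonunits_smul_iff σ A]
    simp
  constructor
  · exact le_of_center_eq hℓ hA' hcen x
  · exact le_of_center_eq hℓ hσA hcen.symm x

end Fermat.Agent.Galois
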