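/-
The tame relation: a Frobenius element raises inertia to the `q`-th power up to wild inertia,
which is `q`-power torsion at every finite level.
-/
import Mathlib
import Fermat.Agent.Galois.Places
import Fermat.Prelude.Def_FLTPrelim_Ramification

set_option autoImplicit false

noncomputable section

namespace Fermat.Agent.Galois

open IsLocalRing
open scoped Pointwise

local notation "ℚb" => AlgebraicClosure ℚ

variable {A : ValuationSubring (AlgebraicClosure ℚ)}

theorem apply_mem_of_mem_decomposition {σ : GQ} (hσ : σ ∈ A.decompositionSubgroup ℚ) {x : ℚb}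
    (hx : x ∈ A) : σ x ∈ A := by
  have h : σ • x ∈ σ • A := ValuationSubring.smul_mem_pointwise_smul _ _ _ hx
  rwa [show σ • A = A from hσ] at h

/-- Elements of the decomposition group preserve the valuation. -/
theorem valuation_apply_eq {σ : GQ} (hσ : σ ∈ A.decompositionSubgroup ℚ) (x : ℚb) :
    A.valuation (σ x) = A.valuation x := by
  have hle : ∀ a b : ℚb, A.valuation a ≤ A.valuation b → A.valuation (σ a) ≤ A.valuation (σ b) :=
    fun a b hab => by
      obtain ⟨c, hc⟩ := (A.valuation_le_iff a b).1 hab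
      exact (A.valuation_le_iff _ _).2
        ⟨⟨σ c, apply_mem_of_mem_decomposition hσ c.2⟩, by rw [← hc, map_mul]⟩
  -- a finite orbit
  obtain ⟨k, hk, hkx⟩ : ∃ k : ℕ, 0 < k ∧ (σ ^ k) x = x := by
    have hfin : (Set.range fun k : ℕ => (σ ^ k) x).Finite := by
      refine ((minpoly ℚ x).rootSet_finite ℚb).subset ?_
      rintro _ ⟨k, rfl⟩
      rw [Polynomial.mem_rootSet]
      exact ⟨minpoly.ne_zero (Algebra.IsIntegral.isIntegral x), by
        show Polynomial.aeval ((σ ^ k : GQ).toAlgHom x) (minpoly ℚ x) = 0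
        rw [Polynomial.aeval_algHom_apply, minpoly.aeval, map_zero]⟩
    obtain ⟨i, -, j, -, hne, he⟩ := Set.infinite_univ.exists_lt_map_eq_of_mapsTo
      (f := fun k : ℕ => (σ ^ k) x) (fun k _ => Set.mem_range_self k) hfin
    refine ⟨j - i, Nat.sub_pos_of_lt hne, (σ ^ i).injective ?_⟩
    rw [← AlgEquiv.mul_apply, ← pow_add, Nat.add_sub_cancel' hne.le]
    exact he.symm
  have hstep : ∀ i : ℕ, (σ ^ (i + 2)) x = σ ((σ ^ (i + 1)) x) := fun i => by
    rw [← AlgEquiv.mul_apply, ← pow_succ']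
  rcases le_total (A.valuation x) (A.valuation (σ x)) with h | h
  · refine le_antisymm ?_ h
    have hm : ∀ i, A.valuation (σ x) ≤ A.valuation ((σ ^ (i + 1)) x) := by
      intro i
      induction i with
      | zero => simp
      | succ i ih => rw [hstep]; exact hle _ _ (h.trans ih)
    have := hm (k - 1)
    rwa [Nat.sub_add_cancel hk, hkx] at this
  · refine le_antisymm h ?_
    have hm : ∀ i, A.valuation ((σ ^ (i + 1)) x) ≤ A.valuation (σ x) := by
      intro i
      induction i with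
      | zero => simp
      | succ i ih => rw [hstep]; exact hle _ _ (ih.trans h)
    have := hm (k - 1)
    rwa [Nat.sub_add_cancel hk, hkx] at this

theorem div_mem_of_valuation_eq {x y : ℚb} (hy : y ≠ 0) (h : A.valuation x = A.valuation y) :
    x / y ∈ A := by
  rw [← A.valuation_le_one_iff, map_div₀, h, div_self ((map_ne_zero _).2 hy)]

theorem inv_mem_decomposition_apply {σ : GQ} (hσ : σ ∈ A.decompositionSubgroup ℚ) (x : ℚb) :
    A.valuation (σ⁻¹ x) = A.valuation x := valuation_apply_eq (inv_mem hσ) x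

/-- The tame character of a decomposition element at a nonzero `x`. -/
def tameChar (σ : A.decompositionSubgroup ℚ) (x : ℚb) (hx : x ≠ 0) : ResidueField A :=
  residue A ⟨(σ : GQ) x / x, div_mem_of_valuation_eq hx (valuation_apply_eq σ.2 x)⟩

theorem residue_smul_eq {σ : GQ} (hσ : σ ∈ A.decompositionSubgroup ℚ) (a : A) :
    (⟨σ, hσ⟩ : A.decompositionSubgroup ℚ) • residue A a =
      residue A ⟨σ a, apply_mem_of_mem_decomposition hσ a.2⟩ := by
  rw [← ResidueField.residue_smul]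
  rfl

theorem tameChar_mul {τ τ' : A.decompositionSubgroup ℚ} (hτ : τ ∈ A.inertiaSubgroup ℚ) (x : ℚb)
    (hx : x ≠ 0) : tameChar (τ * τ') x hx = tameChar τ x hx * tameChar τ' x hx := by
  have hfix : ∀ r : ResidueField A, τ • r = r := fun r => RingEquiv.congr_fun (MonoidHom.mem_ker.1 hτ) r
  rw [tameChar, tameChar, tameChar, ← hfix (residue A ⟨(τ' : GQ) x / x, _⟩), residue_smul_eq,
    ← map_mul]
  congr 1
  refine Subtype.ext ?_
  show (τ : GQ) ((τ' : GQ) x) / x = (τ : GQ) x / x * (τ : GQ) ((τ' : GQ) x / x)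
  have : (τ : GQ) x ≠ 0 := (map_ne_zero _).2 hx
  rw [map_div₀]
  field_simp

theorem tameChar_pow {τ : A.decompositionSubgroup ℚ} (hτ : τ ∈ A.inertiaSubgroup ℚ) (x : ℚb)
    (hx : x ≠ 0) : ∀ k : ℕ, tameChar (τ ^ k) x hx = tameChar τ x hx ^ k
  | 0 => by
    rw [pow_zero, pow_zero, tameChar, ← map_one (residue A)]
    congr 1
    exact Subtype.ext (show x / x = 1 from div_self hx)
  | k + 1 => by rw [pow_succ', pow_succ', tameChar_mul hτ, tameChar_pow hτ x hx k]

theorem tameChar_congr {τ : A.decompositionSubgroup ℚ} (hτ : τ ∈ A.inertiaSubgroup ℚ) {x y : ℚb}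
    (hx : x ≠ 0) (hy : y ≠ 0) (h : A.valuation x = A.valuation y) :
    tameChar τ x hx = tameChar τ y hy := by
  have hu := div_mem_of_valuation_eq hy h
  have hu0 : residue A ⟨x / y, hu⟩ ≠ 0 := fun h0 => by
    have := (A.valuation_lt_one_iff _).1 ((residue_eq_zero_iff _).1 h0)
    rw [map_div₀, h, div_self ((map_ne_zero _).2 hy)] at this
    exact lt_irrefl _ this
  have hfix : (⟨(τ : GQ), τ.2⟩ : A.decompositionSubgroup ℚ) • residue A ⟨x / y, hu⟩ =
      residue A ⟨x / y, hu⟩ := RingEquiv.congr_fun (MonoidHom.mem_ker.1 hτ) _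
  refine mul_left_cancel₀ hu0 ?_
  rw [tameChar, tameChar, ← map_mul]
  conv_rhs => rw [← hfix, residue_smul_eq, ← map_mul]
  congr 1
  refine Subtype.ext ?_
  show x / y * ((τ : GQ) x / x) = (τ : GQ) (x / y) * ((τ : GQ) y / y)
  have : (τ : GQ) y ≠ 0 := (map_ne_zero _).2 hy
  rw [map_div₀]
  field_simp

theorem tameChar_conj {σ : A.decompositionSubgroup ℚ} {q : ℕ}
    (hσ : ∀ r : ResidueField A, σ • r = r ^ q) {τ : A.decompositionSubgroup ℚ}
    (hτ : τ ∈ A.inertiaSubgroup ℚ) (x : ℚb) (hx : x ≠ 0) :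
    tameChar (σ * τ * σ⁻¹) x hx = tameChar τ x hx ^ q := by
  have hy : (σ : GQ)⁻¹ x ≠ 0 := (map_ne_zero _).2 hx
  rw [← tameChar_congr hτ hy hx (inv_mem_decomposition_apply σ.2 x), ← hσ, tameChar, tameChar,
    residue_smul_eq]
  congr 1
  refine Subtype.ext ?_
  show (σ : GQ) ((τ : GQ) ((σ : GQ)⁻¹ x)) / x =
    (σ : GQ) ((τ : GQ) ((σ : GQ)⁻¹ x) / (σ : GQ)⁻¹ x)
  rw [map_div₀, show (σ : GQ) ((σ : GQ)⁻¹ x) = x from (σ : GQ).apply_symm_apply x]

/-- An element of tame character one has `q`-power order at every finite level. -/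
theorem exists_pow_fix_of_tameChar_eq_one {q : ℕ} (hq : q.Prime) (hA : A.LiesOverPrime q)
    {w : A.decompositionSubgroup ℚ} (hw : w ∈ A.inertiaSubgroup ℚ)
    (hw1 : ∀ (x : ℚb) (hx : x ≠ 0), tameChar w x hx = 1)
    (F : IntermediateField ℚ ℚb) [FiniteDimensional ℚ F] [IsGalois ℚ F] :
    ∃ j : ℕ, ∀ x ∈ F, ((w : GQ) ^ q ^ j) x = x := by
  classical
  set g : F ≃ₐ[ℚ] F := AlgEquiv.restrictNormalHom F (w : GQ) with hg
  obtain ⟨j, s, hs, hord⟩ := Nat.exists_eq_pow_mul_and_not_dvd (orderOf_pos g).ne' q hq.ne_one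
  refine ⟨j, fun x hx => ?_⟩
  set u : A.decompositionSubgroup ℚ := w ^ q ^ j with hu
  have hu1 : ∀ (y : ℚb) (hy : y ≠ 0) (i : ℕ), tameChar (u ^ i) y hy = 1 := fun y hy i => by
    rw [hu, ← pow_mul, tameChar_pow hw, hw1 y hy, one_pow]
  have hper : ∀ y ∈ F, ((u : GQ) ^ s) y = y := by
    intro y hy
    have h1 : g ^ (q ^ j * s) = 1 := by rw [← hord]; exact pow_orderOf_eq_one g
    have h2 : AlgEquiv.restrictNormalHom F ((w : GQ) ^ (q ^ j * s)) ⟨y, hy⟩ = ⟨y, hy⟩ := by
      rw [map_pow, ← hg, h1]; rfl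
    have h3 := (AlgEquiv.restrictNormal_commutes ((w : GQ) ^ (q ^ j * s)) F ⟨y, hy⟩).symm
    rw [show AlgEquiv.restrictNormal ((w : GQ) ^ (q ^ j * s)) F ⟨y, hy⟩ = ⟨y, hy⟩ from h2] at h3
    rw [show (u : GQ) = (w : GQ) ^ q ^ j from SubmonoidClass.coe_pow _ _, ← pow_mul]
    exact h3
  have hs0 : (s : ℚb) ≠ 0 := Nat.cast_ne_zero.2 fun h => hs (h ▸ dvd_zero q)
  -- the trace-zero part
  set a : ℚb := (∑ i ∈ Finset.range s, ((u : GQ) ^ i) x) / s with ha
  have hF : ∀ (i : ℕ) (y : ℚb), y ∈ F → ((u : GQ) ^ i) y ∈ F := fun i y hy => by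
    rw [show ((u : GQ) ^ i) y = ((AlgEquiv.restrictNormal ((u : GQ) ^ i) F ⟨y, hy⟩ : F) : ℚb) from
      (AlgEquiv.restrictNormal_commutes ((u : GQ) ^ i) F ⟨y, hy⟩).symm]
    exact SetLike.coe_mem _
  have haF : a ∈ F := div_mem (sum_mem fun i _ => hF i x hx) (natCast_mem F s)
  have hshift : ∀ y ∈ F, ∑ i ∈ Finset.range s, ((u : GQ) ^ (i + 1)) y =
      ∑ i ∈ Finset.range s, ((u : GQ) ^ i) y := by
    intro y hy
    have := Finset.sum_range_succ' (fun i => ((u : GQ) ^ i) y) s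
    rw [Finset.sum_range_succ, pow_zero] at this
    simp only [hper y hy, AlgEquiv.one_apply] at this
    exact (add_right_cancel this).symm
  have hua : (u : GQ) a = a := by
    rw [ha, map_div₀, map_natCast, map_sum]
    congr 1
    refine Eq.trans (Finset.sum_congr rfl fun i _ => ?_) (hshift x hx)
    rw [← AlgEquiv.mul_apply, ← pow_succ']
  have huia : ∀ i : ℕ, ((u : GQ) ^ i) a = a := fun i => by
    induction i with
    | zero => simp
    | succ i ih => rw [pow_succ, AlgEquiv.mul_apply, hua, ih]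
  have hsum : ∑ i ∈ Finset.range s, ((u : GQ) ^ i) (x - a) = 0 := by
    simp only [map_sub, huia, Finset.sum_sub_distrib, Finset.sum_const, Finset.card_range,
      nsmul_eq_mul]
    rw [ha]
    field_simp
    ring
  suffices x - a = 0 by
    rw [sub_eq_zero] at this
    rw [this, ← SubmonoidClass.coe_pow]
    exact hua
  by_contra hd
  have h0 : residue A (∑ i ∈ Finset.range s, (⟨((u : GQ) ^ i) (x - a) / (x - a),
      div_mem_of_valuation_eq hd (valuation_apply_eq (pow_mem u.2 i) _)⟩ : A)) = 0 := by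
    rw [residue_eq_zero_iff]
    convert Ideal.zero_mem _
    rw [← Subtype.coe_inj, AddSubmonoidClass.coe_finsetSum, ← Finset.sum_div, hsum, zero_div]
    rfl
  rw [map_sum] at h0
  have h1 : ∀ i ∈ Finset.range s, residue A (⟨((u : GQ) ^ i) (x - a) / (x - a),
      div_mem_of_valuation_eq hd (valuation_apply_eq (pow_mem u.2 i) _)⟩ : A) = 1 :=
    fun i _ => hu1 (x - a) hd i
  rw [Finset.sum_congr rfl h1, Finset.sum_const, Finset.card_range, nsmul_one] at h0
  have hq0 : (q : ResidueField A) = 0 := by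
    rw [← map_natCast (residue A), residue_eq_zero_iff, A.valuation_lt_one_iff]
    exact (ValuationSubring.mem_nonunits_iff A).1 hA
  obtain ⟨c, d, hcd⟩ := Nat.isCoprime_iff_coprime.2 ((Nat.Prime.coprime_iff_not_dvd hq).2 hs)
  have := congrArg (Int.cast : ℤ → ResidueField A) hcd
  push_cast at this
  rw [hq0, h0, mul_zero, mul_zero, add_zero] at this
  exact zero_ne_one this

/-- The tame relation at a finite level. -/
theorem tame_relation {q : ℕ} (hq : q.Prime) (hA : A.LiesOverPrime q) {σ τ : GQ}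
    (hσ : A.IsFrobeniusAt σ q) (hτ : τ ∈ A.inertiaSubgroupIn ℚ)
    (F : IntermediateField ℚ ℚb) [FiniteDimensional ℚ F] [IsGalois ℚ F] :
    ∃ j : ℕ, ∀ x ∈ F, ((σ * τ * σ⁻¹ * (τ ^ q)⁻¹) ^ q ^ j) x = x := by
  obtain ⟨hdec, hfr⟩ := hσ
  obtain ⟨τ', hτ', rfl⟩ := hτ
  set s : A.decompositionSubgroup ℚ := ⟨σ, hdec⟩ with hs
  have hN : (A.inertiaSubgroup ℚ).Normal := MonoidHom.normal_ker _
  have hc : s * τ' * s⁻¹ ∈ A.inertiaSubgroup ℚ := hN.conj_mem _ hτ' s
  have hq' : (τ' ^ q)⁻¹ ∈ A.inertiaSubgroup ℚ := inv_mem (pow_mem hτ' q)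
  obtain ⟨j, hj⟩ := exists_pow_fix_of_tameChar_eq_one hq hA
    (w := s * τ' * s⁻¹ * (τ' ^ q)⁻¹) (mul_mem hc hq') (fun x hx => by
      rw [tameChar_mul hc, tameChar_conj hfr hτ', ← tameChar_pow hτ',
        ← tameChar_mul (pow_mem hτ' q), mul_inv_cancel]
      simpa using tameChar_pow hτ' x hx 0) F
  exact ⟨j, hj⟩

end Fermat.Agent.Galois
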